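import Fermat.Agent.S27.Grp.Spec

/-!
# Row S27, block GRP, leaf G-ALG-BASIC (helper415, subtask 688)

Pure algebra on gluing data:

* `tensIso    : Grp.Stmt.TensIso`    — `IsTensor` is invariant under isomorphism in each argument;
* `tensUnique : Grp.Stmt.TensUnique` — two tensor products of the same pair are isomorphic;
* `tensComm   : Grp.Stmt.TensComm`   — symmetry;
* `tensUnit   : Grp.Stmt.TensUnit`   — the unit datum is neutral.
-/

set_option autoImplicit false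
universe u
open scoped TensorProduct

namespace Fermat.Agent.S27.H415

open Fermat.Agent.S25 Fermat.Agent.S27

noncomputable section

/-! ## Linear algebra -/

section LA

variable {R : Type u} [CommRing R] {M N P M' N' P' : Type u}
  [AddCommGroup M] [Module R M] [AddCommGroup N] [Module R N] [AddCommGroup P] [Module R P]
  [AddCommGroup M'] [Module R M'] [AddCommGroup N'] [Module R N'] [AddCommGroup P'] [Module R P']

/-- Transport of a bilinear map along linear equivalences. -/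
def conjBilin (β : M →ₗ[R] N →ₗ[R] P) (e : M ≃ₗ[R] M') (e' : N ≃ₗ[R] N') (e'' : P ≃ₗ[R] P') :
    M' →ₗ[R] N' →ₗ[R] P' :=
  (β.compl₁₂ e.symm.toLinearMap e'.symm.toLinearMap).compr₂ e''.toLinearMap

@[simp] lemma conjBilin_apply (β : M →ₗ[R] N →ₗ[R] P) (e : M ≃ₗ[R] M') (e' : N ≃ₗ[R] N')
    (e'' : P ≃ₗ[R] P') (x : M') (y : N') :
    conjBilin β e e' e'' x y = e'' (β (e.symm x) (e'.symm y)) := rfl

lemma lift_conjBilin (β : M →ₗ[R] N →ₗ[R] P) (e : M ≃ₗ[R] M') (e' : N ≃ₗ[R] N')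
    (e'' : P ≃ₗ[R] P') :
    TensorProduct.lift (conjBilin β e e' e'') =
      e''.toLinearMap ∘ₗ TensorProduct.lift β ∘ₗ
        (TensorProduct.congr e.symm e'.symm).toLinearMap := by
  apply TensorProduct.ext'
  intro x y
  simp

lemma bijective_lift_conjBilin (β : M →ₗ[R] N →ₗ[R] P)
    (hβ : Function.Bijective (TensorProduct.lift β)) (e : M ≃ₗ[R] M') (e' : N ≃ₗ[R] N')
    (e'' : P ≃ₗ[R] P') : Function.Bijective (TensorProduct.lift (conjBilin β e e' e'')) := by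
  rw [lift_conjBilin]
  exact e''.bijective.comp (hβ.comp (TensorProduct.congr e.symm e'.symm).bijective)

lemma lift_flip (β : M →ₗ[R] N →ₗ[R] P) :
    TensorProduct.lift β.flip =
      TensorProduct.lift β ∘ₗ (TensorProduct.comm R N M).toLinearMap := by
  apply TensorProduct.ext'
  intro x y
  simp

lemma bijective_lift_flip (β : M →ₗ[R] N →ₗ[R] P)
    (hβ : Function.Bijective (TensorProduct.lift β)) :
    Function.Bijective (TensorProduct.lift β.flip) := by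
  rw [lift_flip]
  exact hβ.comp (TensorProduct.comm R N M).bijective

lemma lift_lsmul : TensorProduct.lift (LinearMap.lsmul R M) =
    (TensorProduct.lid R M).toLinearMap := by
  apply TensorProduct.ext'
  intro x y
  simp

lemma bijective_lift_lsmul : Function.Bijective (TensorProduct.lift (LinearMap.lsmul R M)) := by
  rw [lift_lsmul]
  exact (TensorProduct.lid R M).bijective

end LA

variable {A R₀ R₁ R₀₁ : Type u} [CommRing A] [CommRing R₀] [CommRing R₁]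
    [CommRing R₀₁] [Algebra A R₀] [Algebra A R₁] [Algebra A R₀₁] [Algebra R₀ R₀₁]
    [Algebra R₁ R₀₁] [IsScalarTower A R₀ R₀₁] [IsScalarTower A R₁ R₀₁]

/-! ## TENS-ISO -/

lemma iso_symm_r₀ {G H : GlueDatum A R₀ R₁ R₀₁} (e : GlueDatum.Iso G H) (s : H.N₀) :
    e.e₀₁.symm (H.r₀ s) = G.r₀ (e.e₀.symm s) := by
  rw [LinearEquiv.symm_apply_eq, e.comm₀, LinearEquiv.apply_symm_apply]

lemma iso_symm_r₁ {G H : GlueDatum A R₀ R₁ R₀₁} (e : GlueDatum.Iso G H) (s : H.N₁) :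
    e.e₀₁.symm (H.r₁ s) = G.r₁ (e.e₁.symm s) := by
  rw [LinearEquiv.symm_apply_eq, e.comm₁, LinearEquiv.apply_symm_apply]

/-- Transport of tensor maps along isomorphisms. -/
def tensorMapsOfIso {G G' G'' H H' H'' : GlueDatum A R₀ R₁ R₀₁} (T : TensorMaps G G' G'')
    (e : GlueDatum.Iso G H) (e' : GlueDatum.Iso G' H') (e'' : GlueDatum.Iso G'' H'') :
    TensorMaps H H' H'' where
  β₀ := conjBilin T.β₀ e.e₀ e'.e₀ e''.e₀
  β₁ := conjBilin T.β₁ e.e₁ e'.e₁ e''.e₁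
  β₀₁ := conjBilin T.β₀₁ e.e₀₁ e'.e₀₁ e''.e₀₁
  comm₀ s s' := by
    rw [conjBilin_apply, conjBilin_apply, iso_symm_r₀, iso_symm_r₀, T.comm₀, e''.comm₀]
  comm₁ s s' := by
    rw [conjBilin_apply, conjBilin_apply, iso_symm_r₁, iso_symm_r₁, T.comm₁, e''.comm₁]
  bijective₀ := bijective_lift_conjBilin _ T.bijective₀ _ _ _
  bijective₁ := bijective_lift_conjBilin _ T.bijective₁ _ _ _
  bijective₀₁ := bijective_lift_conjBilin _ T.bijective₀₁ _ _ _

/-- **TENS-ISO.** -/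
theorem tensIso : Grp.Stmt.TensIso.{u} := by
  intro A R₀ R₁ R₀₁ _ _ _ _ _ _ _ _ _ _ _ G G' G'' H H' H'' hT he he' he''
  obtain ⟨T⟩ := hT
  obtain ⟨e⟩ := he
  obtain ⟨e'⟩ := he'
  obtain ⟨e''⟩ := he''
  exact ⟨tensorMapsOfIso T e e' e''⟩

/-! ## TENS-UNIQUE -/

section Unique

variable {G G' G₁ G₂ : GlueDatum A R₀ R₁ R₀₁} (T₁ : TensorMaps G G' G₁)
  (T₂ : TensorMaps G G' G₂)

/-- The comparison on the chart `0`. -/
def uniq₀ : G₁.N₀ ≃ₗ[R₀] G₂.N₀ :=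
  (LinearEquiv.ofBijective (TensorProduct.lift T₁.β₀) T₁.bijective₀).symm ≪≫ₗ
    LinearEquiv.ofBijective (TensorProduct.lift T₂.β₀) T₂.bijective₀

/-- The comparison on the chart `1`. -/
def uniq₁ : G₁.N₁ ≃ₗ[R₁] G₂.N₁ :=
  (LinearEquiv.ofBijective (TensorProduct.lift T₁.β₁) T₁.bijective₁).symm ≪≫ₗ
    LinearEquiv.ofBijective (TensorProduct.lift T₂.β₁) T₂.bijective₁

/-- The comparison on the intersection. -/
def uniq₀₁ : G₁.N₀₁ ≃ₗ[R₀₁] G₂.N₀₁ :=
  (LinearEquiv.ofBijective (TensorProduct.lift T₁.β₀₁) T₁.bijective₀₁).symm ≪≫ₗ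
    LinearEquiv.ofBijective (TensorProduct.lift T₂.β₀₁) T₂.bijective₀₁

lemma uniq₀_lift (t : G.N₀ ⊗[R₀] G'.N₀) :
    uniq₀ T₁ T₂ (TensorProduct.lift T₁.β₀ t) = TensorProduct.lift T₂.β₀ t := by
  have h : (LinearEquiv.ofBijective (TensorProduct.lift T₁.β₀) T₁.bijective₀).symm
      (TensorProduct.lift T₁.β₀ t) = t := (LinearEquiv.symm_apply_eq _).2 rfl
  unfold uniq₀
  rw [LinearEquiv.trans_apply, h]
  rfl

lemma uniq₁_lift (t : G.N₁ ⊗[R₁] G'.N₁) :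
    uniq₁ T₁ T₂ (TensorProduct.lift T₁.β₁ t) = TensorProduct.lift T₂.β₁ t := by
  have h : (LinearEquiv.ofBijective (TensorProduct.lift T₁.β₁) T₁.bijective₁).symm
      (TensorProduct.lift T₁.β₁ t) = t := (LinearEquiv.symm_apply_eq _).2 rfl
  unfold uniq₁
  rw [LinearEquiv.trans_apply, h]
  rfl

lemma uniq₀₁_lift (t : G.N₀₁ ⊗[R₀₁] G'.N₀₁) :
    uniq₀₁ T₁ T₂ (TensorProduct.lift T₁.β₀₁ t) = TensorProduct.lift T₂.β₀₁ t := by
  have h : (LinearEquiv.ofBijective (TensorProduct.lift T₁.β₀₁) T₁.bijective₀₁).symm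
      (TensorProduct.lift T₁.β₀₁ t) = t := (LinearEquiv.symm_apply_eq _).2 rfl
  unfold uniq₀₁
  rw [LinearEquiv.trans_apply, h]
  rfl

lemma uniq₀₁_β (x : G.N₀₁) (y : G'.N₀₁) :
    uniq₀₁ T₁ T₂ (T₁.β₀₁ x y) = T₂.β₀₁ x y := by
  have h := uniq₀₁_lift T₁ T₂ (x ⊗ₜ[R₀₁] y)
  rwa [TensorProduct.lift.tmul, TensorProduct.lift.tmul] at h

lemma uniq_comm₀_aux (t : G.N₀ ⊗[R₀] G'.N₀) :
    uniq₀₁ T₁ T₂ (G₁.r₀ (TensorProduct.lift T₁.β₀ t)) =
      G₂.r₀ (TensorProduct.lift T₂.β₀ t) := by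
  induction t using TensorProduct.induction_on with
  | zero => simp
  | tmul x y =>
    rw [TensorProduct.lift.tmul, TensorProduct.lift.tmul, ← T₁.comm₀, ← T₂.comm₀, uniq₀₁_β]
  | add a b ha hb => rw [map_add, map_add, map_add, map_add, map_add, ha, hb]

lemma uniq_comm₁_aux (t : G.N₁ ⊗[R₁] G'.N₁) :
    uniq₀₁ T₁ T₂ (G₁.r₁ (TensorProduct.lift T₁.β₁ t)) =
      G₂.r₁ (TensorProduct.lift T₂.β₁ t) := by
  induction t using TensorProduct.induction_on with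
  | zero => simp
  | tmul x y =>
    rw [TensorProduct.lift.tmul, TensorProduct.lift.tmul, ← T₁.comm₁, ← T₂.comm₁, uniq₀₁_β]
  | add a b ha hb => rw [map_add, map_add, map_add, map_add, map_add, ha, hb]

/-- The comparison isomorphism between two tensor products. -/
def uniqIso : GlueDatum.Iso G₁ G₂ where
  e₀ := uniq₀ T₁ T₂
  e₁ := uniq₁ T₁ T₂
  e₀₁ := uniq₀₁ T₁ T₂
  comm₀ s := by
    obtain ⟨t, rfl⟩ := T₁.bijective₀.2 s
    rw [uniq_comm₀_aux, uniq₀_lift]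
  comm₁ s := by
    obtain ⟨t, rfl⟩ := T₁.bijective₁.2 s
    rw [uniq_comm₁_aux, uniq₁_lift]

end Unique

/-- **TENS-UNIQUE.** -/
theorem tensUnique : Grp.Stmt.TensUnique.{u} := by
  intro A R₀ R₁ R₀₁ _ _ _ _ _ _ _ _ _ _ _ G G' G₁ G₂ h₁ h₂
  obtain ⟨T₁⟩ := h₁
  obtain ⟨T₂⟩ := h₂
  exact ⟨uniqIso T₁ T₂⟩

/-! ## TENS-COMM -/

/-- The flipped tensor maps. -/
def tensorMapsFlip {G G' G'' : GlueDatum A R₀ R₁ R₀₁} (T : TensorMaps G G' G'') :
    TensorMaps G' G G'' where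
  β₀ := T.β₀.flip
  β₁ := T.β₁.flip
  β₀₁ := T.β₀₁.flip
  comm₀ s s' := by
    rw [LinearMap.flip_apply, LinearMap.flip_apply, T.comm₀]
  comm₁ s s' := by
    rw [LinearMap.flip_apply, LinearMap.flip_apply, T.comm₁]
  bijective₀ := bijective_lift_flip _ T.bijective₀
  bijective₁ := bijective_lift_flip _ T.bijective₁
  bijective₀₁ := bijective_lift_flip _ T.bijective₀₁

/-- **TENS-COMM.** -/
theorem tensComm : Grp.Stmt.TensComm.{u} := by
  intro A R₀ R₁ R₀₁ _ _ _ _ _ _ _ _ _ _ _ G G' G'' hT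
  obtain ⟨T⟩ := hT
  exact ⟨tensorMapsFlip T⟩

/-! ## TENS-UNIT -/

/-- The tensor maps `O ⊗ G → G`, `r ⊗ n ↦ r • n`. -/
def tensorMapsUnit (G : GlueDatum A R₀ R₁ R₀₁) :
    TensorMaps (GlueDatum.unit A R₀ R₁ R₀₁) G G where
  β₀ := LinearMap.lsmul R₀ G.N₀
  β₁ := LinearMap.lsmul R₁ G.N₁
  β₀₁ := LinearMap.lsmul R₀₁ G.N₀₁
  comm₀ := fun (r : R₀) (s : G.N₀) => by
    show algebraMap R₀ R₀₁ r • G.r₀ s = G.r₀ (r • s)
    rw [algebraMap_smul, map_smul]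
  comm₁ := fun (r : R₁) (s : G.N₁) => by
    show algebraMap R₁ R₀₁ r • G.r₁ s = G.r₁ (r • s)
    rw [algebraMap_smul, map_smul]
  bijective₀ := bijective_lift_lsmul
  bijective₁ := bijective_lift_lsmul
  bijective₀₁ := bijective_lift_lsmul

/-- **TENS-UNIT.** -/
theorem tensUnit : Grp.Stmt.TensUnit.{u} := by
  intro A R₀ R₁ R₀₁ _ _ _ _ _ _ _ _ _ _ _ G
  exact ⟨tensorMapsUnit G⟩

end

end Fermat.Agent.S27.H415
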